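import Fermat.Agent.LT.Hyp.Act

/-!
# Invariance of the hyperbolic measure
-/

set_option autoImplicit false

noncomputable section

namespace FLTAgent.LT.Hyp

open MeasureTheory Matrix Complex
open scoped ComplexConjugate ENNReal

/-- The inclusion of upper half space. -/
def emb (p : H3) : ℂ × ℝ := (p.1, (p.2 : ℝ))

theorem measurableEmbedding_emb : MeasurableEmbedding emb :=
  MeasurableEmbedding.id.prodMap (MeasurableEmbedding.subtype_coe measurableSet_Ioi)

theorem hypMeasure_eq :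
    hypMeasure = ((volume : Measure (ℂ × ℝ)).comap emb).withDensity
      fun p => ENNReal.ofReal (((p.2 : ℝ) ^ 3)⁻¹) := rfl

open Classical in
/-- A function on upper half space, extended by zero. -/
def liftFun (f : H3 → ℝ≥0∞) (x : ℂ × ℝ) : ℝ≥0∞ :=
  if h : 0 < x.2 then f (x.1, ⟨x.2, h⟩) else 0

/-- Integrals for the hyperbolic measure. -/
theorem lintegral_hyp {f : H3 → ℝ≥0∞} (hf : Measurable f) :
    ∫⁻ p, f p ∂hypMeasure = ∫⁻ x : ℂ × ℝ, ENNReal.ofReal ((x.2 ^ 3)⁻¹) * liftFun f x := by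
  have hm : Measurable fun p : H3 => ENNReal.ofReal (((p.2 : ℝ) ^ 3)⁻¹) := by fun_prop
  have hrange : Set.range emb = {x : ℂ × ℝ | 0 < x.2} := by
    ext x
    exact ⟨by rintro ⟨p, rfl⟩; exact p.2.2, fun h => ⟨(x.1, ⟨x.2, h⟩), rfl⟩⟩
  have hS : MeasurableSet {x : ℂ × ℝ | 0 < x.2} := measurableSet_lt measurable_const measurable_snd
  rw [hypMeasure_eq, lintegral_withDensity_eq_lintegral_mul _ hm hf]
  calc ∫⁻ p, ((fun p : H3 => ENNReal.ofReal (((p.2 : ℝ) ^ 3)⁻¹)) * f) p ∂(volume.comap emb)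
      = ∫⁻ p, ENNReal.ofReal (((emb p).2 ^ 3)⁻¹) * liftFun f (emb p) ∂(volume.comap emb) :=
        lintegral_congr fun p => by
          have hp : (0 : ℝ) < p.2 := p.2.2
          simp [emb, liftFun, hp]
    _ = ∫⁻ x in Set.range emb, ENNReal.ofReal ((x.2 ^ 3)⁻¹) * liftFun f x := by
        rw [← measurableEmbedding_emb.lintegral_map
          (fun x : ℂ × ℝ => ENNReal.ofReal ((x.2 ^ 3)⁻¹) * liftFun f x),
          measurableEmbedding_emb.map_comap]
    _ = _ := by
        rw [hrange, ← lintegral_indicator hS]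
        refine lintegral_congr fun x => ?_
        by_cases h : 0 < x.2
        · simp [h]
        · simp [h, liftFun]

theorem measurable_liftFun {f : H3 → ℝ≥0∞} (hf : Measurable f) : Measurable (liftFun f) := by
  classical
  refine Measurable.dite (f := fun x : {x : ℂ × ℝ // 0 < x.2} => f (x.1.1, ⟨x.1.2, x.2⟩))
    (g := fun _ => 0) ?_ measurable_const (measurableSet_lt measurable_const measurable_snd)
  exact hf.comp ((measurable_subtype_coe.fst).prodMk (measurable_subtype_coe.snd.subtype_mk))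

theorem measurable_act (g : GL (Fin 2) ℂ) : Measurable (act g) := (continuous_act g).measurable

theorem liftFun_act (f : H3 → ℝ≥0∞) (g : GL (Fin 2) ℂ) (x : ℂ × ℝ) (h : 0 < x.2) :
    liftFun (fun p => f (act g p)) x = f (act g (x.1, ⟨x.2, h⟩)) := by
  simp [liftFun, h]

/-- The invariance as a property of a matrix. -/
def Preserves (g : GL (Fin 2) ℂ) : Prop :=
  ∀ f : H3 → ℝ≥0∞, Measurable f → ∫⁻ p, f (act g p) ∂hypMeasure = ∫⁻ p, f p ∂hypMeasure

theorem Preserves.mul {g h : GL (Fin 2) ℂ} (hg : Preserves g) (hh : Preserves h) :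
    Preserves (g * h) := fun f hf => by
  simp only [act_mul]
  rw [hh (fun p => f (act g p)) (hf.comp (measurable_act g)), hg f hf]

/-- The diagonal and unipotent matrices. -/
def upperC (a b : ℂ) (e : ℂ) (ha : a ≠ 0) (he : e ≠ 0) : GL (Fin 2) ℂ :=
  Matrix.GeneralLinearGroup.mkOfDetNeZero !![a, b; 0, e] (by simp [Matrix.det_fin_two, ha, he])

theorem act_upperC (a b e : ℂ) (ha : a ≠ 0) (he : e ≠ 0) (p : H3) :
    emb (act (upperC a b e ha he) p) = ((a * p.1 + b) / e, ‖a / e‖ * (p.2 : ℝ)) := by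
  have hn : (Complex.normSq e : ℂ) = e * conj e := (Complex.mul_conj e).symm
  refine Prod.ext ?_ ?_
  · show (act _ p).1 = _
    simp [act, upperC, den, hn]
    field_simp [(map_ne_zero (starRingEnd ℂ)).2 he]
  · show ((act _ p).2 : ℝ) = _
    rw [coe_act_snd]
    simp [upperC, den, Matrix.det_fin_two, Complex.normSq_eq_norm_sq]
    field_simp [norm_ne_zero_iff.2 he]

/-- Affine substitutions in `ℂ × ℝ`. -/
theorem lintegral_affine (u b : ℂ) (hu : u ≠ 0) (f : ℂ × ℝ → ℝ≥0∞) (hf : Measurable f) :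
    ∫⁻ x : ℂ × ℝ, f (u * x.1 + b, ‖u‖ * x.2) =
      ENNReal.ofReal ((‖u‖ ^ 3)⁻¹) * ∫⁻ x : ℂ × ℝ, f x := by
  have hn : 0 < ‖u‖ := norm_pos_iff.2 hu
  have hw : ‖u / (‖u‖ : ℂ)‖ = 1 := by simp [hu]
  let R := rotation ⟨u / (‖u‖ : ℂ), by simpa [Submonoid.unitSphere, Circle] using hw⟩
  have e1 : ∀ x : ℂ × ℝ, ((u * x.1 + b, ‖u‖ * x.2) : ℂ × ℝ) =
      ‖u‖ • Prod.map R id x + (b, 0) := by
    intro x
    ext1 <;> simp [R, rotation_apply, Complex.real_smul]
    field_simp [ofReal_ne_zero.2 hn.ne']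
  have hR : MeasurePreserving (Prod.map R id : ℂ × ℝ → ℂ × ℝ) volume volume :=
    R.measurePreserving.prod (MeasurePreserving.id volume)
  simp only [e1]
  haveI : (volume : Measure (ℂ × ℝ)).IsAddHaarMeasure := by
    rw [Measure.volume_eq_prod]; infer_instance
  rw [hR.lintegral_comp (f := fun y => f (‖u‖ • y + (b, 0))) (by fun_prop)]
  have hfr : Module.finrank ℝ (ℂ × ℝ) = 3 := by simp [Complex.finrank_real_complex]
  have hmap := Measure.map_addHaar_smul (volume : Measure (ℂ × ℝ)) hn.ne'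
  rw [← lintegral_map (f := fun y => f (y + (b, 0))) (by fun_prop) (measurable_const_smul ‖u‖)]
  rw [hmap, lintegral_smul_measure, hfr, lintegral_add_right_eq_self (fun y => f y)]
  rw [abs_of_pos (by positivity : (0 : ℝ) < (‖u‖ ^ 3)⁻¹), smul_eq_mul]

theorem preserves_upperC (a b e : ℂ) (ha : a ≠ 0) (he : e ≠ 0) :
    Preserves (upperC a b e ha he) := by
  intro f hf
  have hu : a / e ≠ 0 := div_ne_zero ha he
  have hn : 0 < ‖a / e‖ := norm_pos_iff.2 hu
  rw [lintegral_hyp hf,
    lintegral_hyp (f := fun p => f (act (upperC a b e ha he) p)) (hf.comp (measurable_act _))]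
  have hF : Measurable fun x : ℂ × ℝ => ENNReal.ofReal ((x.2 ^ 3)⁻¹) * liftFun f x :=
    (by fun_prop : Measurable fun x : ℂ × ℝ => ENNReal.ofReal ((x.2 ^ 3)⁻¹)).mul
      (measurable_liftFun hf)
  have h := lintegral_affine (a / e) (b / e) hu _ hF
  have h' : ∫⁻ x : ℂ × ℝ, ENNReal.ofReal ((x.2 ^ 3)⁻¹) *
      liftFun (fun p => f (act (upperC a b e ha he) p)) x =
      ENNReal.ofReal (‖a / e‖ ^ 3) * ∫⁻ x : ℂ × ℝ,
        ENNReal.ofReal (((‖a / e‖ * x.2) ^ 3)⁻¹) *
          liftFun f (a / e * x.1 + b / e, ‖a / e‖ * x.2) := by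
    rw [← lintegral_const_mul' _ _ ENNReal.ofReal_ne_top]
    refine lintegral_congr fun x => ?_
    rw [← mul_assoc, ← ENNReal.ofReal_mul (by positivity)]
    by_cases hx : 0 < x.2
    · rw [liftFun_act f _ x hx]
      have hpos : 0 < ‖a / e‖ * x.2 := mul_pos hn hx
      have he1 := act_upperC a b e ha he (x.1, ⟨x.2, hx⟩)
      rw [show (a * x.1 + b) / e = a / e * x.1 + b / e by ring] at he1
      congr 1
      · congr 1
        field_simp
      · rw [liftFun, dif_pos hpos]
        congr 1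
        exact measurableEmbedding_emb.injective he1
    · have hx' : ¬ 0 < ‖a / e‖ * x.2 := fun h0 => hx ((pos_iff_pos_of_mul_pos h0).1 hn)
      simp only [liftFun, dif_neg hx, dif_neg hx', mul_zero]
  calc _ = _ := h'
    _ = _ := by
      rw [h, ← mul_assoc, ← ENNReal.ofReal_mul (by positivity),
        mul_inv_cancel₀ (by positivity : ‖a / e‖ ^ 3 ≠ 0), ENNReal.ofReal_one, one_mul]

/-- The inversion. -/
def invC : GL (Fin 2) ℂ :=
  Matrix.GeneralLinearGroup.mkOfDetNeZero !![0, -1; 1, 0] (by simp [Matrix.det_fin_two])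

/-- Coordinates on `ℂ × ℝ`. -/
def coords : (Fin 3 → ℝ) ≃ᵐ ℂ × ℝ :=
  (MeasurableEquiv.piFinSuccAbove (fun _ => ℝ) 2).trans
    (((MeasurableEquiv.refl ℝ).prodCongr Complex.measurableEquivPi.symm).trans
      MeasurableEquiv.prodComm)

theorem measurePreserving_coords : MeasurePreserving coords volume volume :=
  (Measure.measurePreserving_swap).comp
    (((MeasurePreserving.id volume).prod (Complex.volume_preserving_equiv_pi.symm _)).comp
      (volume_preserving_piFinSuccAbove (fun _ => ℝ) 2))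

theorem coords_apply (v : Fin 3 → ℝ) : coords v = (⟨v 0, v 1⟩, v 2) := by
  simp [coords, MeasurableEquiv.piFinSuccAbove, MeasurableEquiv.prodComm,
    MeasurableEquiv.prodCongr, Fin.insertNthEquiv, Complex.measurableEquivPi, Fin.succAbove,
    Fin.removeNth]
  apply Complex.ext <;> simp

/-- The inversion in coordinates. -/
def invMap (v : Fin 3 → ℝ) : Fin 3 → ℝ := fun i =>
  (![-1, 1, 1] : Fin 3 → ℝ) i * v i * (v 0 ^ 2 + v 1 ^ 2 + v 2 ^ 2)⁻¹

/-- The matrix of its derivative. -/
def invJac (v : Fin 3 → ℝ) : Matrix (Fin 3) (Fin 3) ℝ := Matrix.of fun i j =>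
  (![-1, 1, 1] : Fin 3 → ℝ) i * ((if i = j then (v 0 ^ 2 + v 1 ^ 2 + v 2 ^ 2)⁻¹ else 0) -
    2 * v i * v j * ((v 0 ^ 2 + v 1 ^ 2 + v 2 ^ 2)⁻¹) ^ 2)

theorem det_invJac (v : Fin 3 → ℝ) (h : v 0 ^ 2 + v 1 ^ 2 + v 2 ^ 2 ≠ 0) :
    (invJac v).det = ((v 0 ^ 2 + v 1 ^ 2 + v 2 ^ 2) ^ 3)⁻¹ := by
  simp [invJac, Matrix.det_fin_three]
  field_simp
  ring

theorem hasFDerivAt_invMap (v : Fin 3 → ℝ) (h : v 0 ^ 2 + v 1 ^ 2 + v 2 ^ 2 ≠ 0) :
    HasFDerivAt invMap (LinearMap.toContinuousLinearMap (Matrix.toLin' (invJac v))) v := by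
  rw [hasFDerivAt_pi']
  intro i
  have hp : ∀ j : Fin 3, HasFDerivAt (fun w : Fin 3 → ℝ => w j)
      (ContinuousLinearMap.proj (R := ℝ) (φ := fun _ => ℝ) j) v := fun j => hasFDerivAt_apply j v
  have hS := (((hp 0).pow 2).add ((hp 1).pow 2)).add ((hp 2).pow 2)
  have := ((hp i).const_mul ((![-1, 1, 1] : Fin 3 → ℝ) i)).fun_mul
    ((hasDerivAt_inv h).comp_hasFDerivAt v hS)
  refine this.congr_fderiv (ContinuousLinearMap.ext fun w => ?_)
  simp [invJac, Matrix.mulVec, dotProduct, Fin.sum_univ_three]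
  fin_cases i <;> simp <;> ring

theorem invMap_involutive (v : Fin 3 → ℝ) (h : v 0 ^ 2 + v 1 ^ 2 + v 2 ^ 2 ≠ 0) :
    invMap (invMap v) = v := by
  funext i
  fin_cases i <;> simp [invMap] <;> field_simp

theorem preserves_invC : Preserves invC := by
  intro f hf
  set U : Set (Fin 3 → ℝ) := {v | 0 < v 2}
  have hU : MeasurableSet U := measurableSet_lt measurable_const (measurable_pi_apply 2)
  have hS : ∀ v ∈ U, 0 < v 0 ^ 2 + v 1 ^ 2 + v 2 ^ 2 := fun v hv => by
    have : 0 < v 2 ^ 2 := pow_pos hv 2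
    positivity
  have hinj : Set.InjOn invMap U := fun v hv w hw e => by
    rw [← invMap_involutive v (hS v hv).ne', e, invMap_involutive w (hS w hw).ne']
  have himage : invMap '' U = U := by
    ext v
    refine ⟨?_, fun hv => ⟨invMap v, ?_, invMap_involutive v (hS v hv).ne'⟩⟩
    · rintro ⟨w, hw, rfl⟩
      show 0 < invMap w 2
      have := hS w hw
      simp [invMap]
      exact mul_pos hw (inv_pos.2 this)
    · show 0 < invMap v 2
      have := hS v hv
      simp [invMap]
      exact mul_pos hv (inv_pos.2 this)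
  set G : (Fin 3 → ℝ) → ℝ≥0∞ := fun v => ENNReal.ofReal ((v 2 ^ 3)⁻¹) * liftFun f (coords v)
  have key := lintegral_image_eq_lintegral_abs_det_fderiv_mul (μ := volume) hU
    (fun v hv => (hasFDerivAt_invMap v (hS v hv).ne').hasFDerivWithinAt) hinj G
  rw [himage] at key
  have conv : ∀ g : H3 → ℝ≥0∞, Measurable g → ∫⁻ p, g p ∂hypMeasure =
      ∫⁻ v in U, ENNReal.ofReal ((v 2 ^ 3)⁻¹) * liftFun g (coords v) := by
    intro g hg
    rw [lintegral_hyp hg, ← measurePreserving_coords.lintegral_comp_emb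
      coords.measurableEmbedding, ← lintegral_indicator hU]
    refine lintegral_congr fun v => ?_
    by_cases hv : v ∈ U
    · simp [hv, coords_apply]
    · have hv' : ¬ 0 < v 2 := hv
      simp [hv, coords_apply, liftFun, hv']
  rw [conv _ hf, conv (fun p => f (act invC p)) (hf.comp (measurable_act _))]
  refine Eq.trans ?_ key.symm
  refine setLIntegral_congr_fun hU fun v hv => ?_
  have hv2 : 0 < v 2 := hv
  have hs := hS v hv
  have h2 : 0 < invMap v 2 := by
    simp [invMap]
    exact mul_pos hv2 (inv_pos.2 hs)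
  rw [show (LinearMap.toContinuousLinearMap (Matrix.toLin' (invJac v))).det = (invJac v).det by
    simp [ContinuousLinearMap.det]]
  simp only [G, coords_apply, liftFun, h2, hv2, dif_pos, det_invJac v hs.ne']
  rw [← mul_assoc, ← ENNReal.ofReal_mul (abs_nonneg _)]
  congr 1
  · congr 1
    rw [abs_of_pos (by positivity)]
    simp [invMap]
    field_simp
  · congr 1
    refine measurableEmbedding_emb.injective ?_
    simp [emb, act, invC, den, invMap, Matrix.det_fin_two, Complex.normSq_mk]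
    refine ⟨Complex.ext ?_ ?_, ?_⟩
    · rw [show ((v 0 : ℂ) * v 0 + v 1 * v 1 + (v 2 : ℂ) ^ 2) =
        ((v 0 ^ 2 + v 1 ^ 2 + v 2 ^ 2 : ℝ) : ℂ) by push_cast; ring, Complex.div_ofReal_re]
      simp
      ring
    · rw [show ((v 0 : ℂ) * v 0 + v 1 * v 1 + (v 2 : ℂ) ^ 2) =
        ((v 0 ^ 2 + v 1 ^ 2 + v 2 ^ 2 : ℝ) : ℂ) by push_cast; ring, Complex.div_ofReal_im]
      simp
      ring
    · ring

/-- **The hyperbolic measure is invariant.** -/
theorem preserves (g : GL (Fin 2) ℂ) : Preserves g := by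
  have hdet : g 0 0 * g 1 1 - g 0 1 * g 1 0 ≠ 0 := by
    have := (Matrix.GeneralLinearGroup.det g).ne_zero
    simpa [Matrix.det_fin_two] using this
  by_cases hc : g 1 0 = 0
  · rw [hc, mul_zero, sub_zero] at hdet
    have e : g = upperC (g 0 0) (g 0 1) (g 1 1) (left_ne_zero_of_mul hdet)
        (right_ne_zero_of_mul hdet) := by
      apply Units.ext
      ext i j
      fin_cases i <;> fin_cases j <;> simp [upperC, hc]
    rw [e]
    exact preserves_upperC _ _ _ _ _
  · have e : g = upperC 1 (g 0 0 / g 1 0) 1 one_ne_zero one_ne_zero * invC *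
        upperC (g 1 0) (g 1 1) ((g 0 0 * g 1 1 - g 0 1 * g 1 0) / g 1 0) hc
          (div_ne_zero hdet hc) := by
      apply Units.ext
      ext i j
      fin_cases i <;> fin_cases j <;>
        simp [upperC, invC, Matrix.mul_apply, Fin.sum_univ_two] <;> field_simp
      ring
    rw [e]
    exact ((preserves_upperC _ _ _ _ _).mul preserves_invC).mul (preserves_upperC _ _ _ _ _)

theorem measurePreserving_act (g : GL (Fin 2) ℂ) :
    MeasurePreserving (act g) hypMeasure hypMeasure := by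
  refine ⟨measurable_act g, Measure.ext fun s hs => ?_⟩
  have := preserves g (s.indicator 1) (measurable_one.indicator hs)
  rw [Measure.map_apply (measurable_act g) hs, ← lintegral_indicator_one (measurable_act g hs),
    ← lintegral_indicator_one hs, ← this]
  rfl

theorem measurableEmbedding_act (g : GL (Fin 2) ℂ) : MeasurableEmbedding (act g) :=
  MeasurableEquiv.measurableEmbedding
    { toEquiv := actEquiv g
      measurable_toFun := measurable_act g
      measurable_invFun := measurable_act g⁻¹ }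

/-- Invariance of integrals. -/
theorem integral_act {E : Type*} [NormedAddCommGroup E] [NormedSpace ℝ E] (g : GL (Fin 2) ℂ)
    (f : H3 → E) : ∫ p, f (act g p) ∂hypMeasure = ∫ p, f p ∂hypMeasure :=
  (measurePreserving_act g).integral_comp (measurableEmbedding_act g) f

end FLTAgent.LT.Hyp
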