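import Fermat.Agent.LT.Hyp.Horo
import Mathlib.Analysis.SpecialFunctions.PolarCoord
import Mathlib.MeasureTheory.Integral.IntegralEqImproper
import Mathlib.Analysis.Calculus.ContDiff.RCLike
import Mathlib.Analysis.Calculus.Deriv.Comp

/-!
The radial kernel `-h'(r) / (2π sinh r)` whose horospherical integrals are `e^{-l} h(l)`.
-/

set_option autoImplicit false

noncomputable section

namespace FLTAgent.LT.Hyp

open MeasureTheory Real Set Filter
open scoped Topology

/-- Prescribed horospherical integrals: even, smooth, compactly supported. -/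
structure AbelDatum (h : ℝ → ℝ) : Prop where
  smooth : ContDiff ℝ 3 h
  even : ∀ x, h (-x) = h x
  compact : HasCompactSupport h

/-- `-(h'(r) / r) / (2π sinh r / r)`. -/
def radKer (h : ℝ → ℝ) (r : ℝ) : ℝ :=
  -(∫ s in (0 : ℝ)..1, deriv (deriv h) (s * r)) / (2 * π * ∫ s in (0 : ℝ)..1, cosh (s * r))

variable {h : ℝ → ℝ}

theorem AbelDatum.diff (H : AbelDatum h) : Differentiable ℝ h := H.smooth.differentiable (by norm_num)

theorem AbelDatum.deriv_zero (H : AbelDatum h) : deriv h 0 = 0 := by
  have h1 : deriv (fun x => h (-x)) 0 = -deriv h (-0) := deriv_comp_neg h 0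
  rw [show (fun x => h (-x)) = h from funext H.even, neg_zero] at h1
  linarith

theorem AbelDatum.contDiff_deriv (H : AbelDatum h) : ContDiff ℝ 2 (deriv h) :=
  ((contDiff_succ_iff_deriv (n := 2)).1 (H.smooth.of_le (by norm_num))).2.2

theorem AbelDatum.contDiff_deriv2 (H : AbelDatum h) : ContDiff ℝ 1 (deriv (deriv h)) :=
  ((contDiff_succ_iff_deriv (n := 1)).1 (H.contDiff_deriv.of_le (by norm_num))).2.2

theorem AbelDatum.integral_num (H : AbelDatum h) (r : ℝ) :
    r * ∫ s in (0 : ℝ)..1, deriv (deriv h) (s * r) = deriv h r := by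
  rcases eq_or_ne r 0 with rfl | hr
  · simp [H.deriv_zero]
  · rw [intervalIntegral.integral_comp_mul_right _ hr, smul_eq_mul, ← mul_assoc,
      mul_inv_cancel₀ hr, one_mul, zero_mul, one_mul,
      intervalIntegral.integral_deriv_eq_sub
        (fun x _ => (H.contDiff_deriv.differentiable (by norm_num)).differentiableAt)
        (H.contDiff_deriv2.continuous.intervalIntegrable _ _), H.deriv_zero, sub_zero]

theorem one_le_integral_cosh (r : ℝ) : 1 ≤ ∫ s in (0 : ℝ)..1, cosh (s * r) := by
  have := intervalIntegral.integral_mono_on (μ := volume) zero_le_one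
    (intervalIntegrable_const (c := (1 : ℝ)))
    (Continuous.intervalIntegrable (by fun_prop) _ _)
    (g := fun s => cosh (s * r)) fun s _ => one_le_cosh _
  simpa using this

theorem mul_integral_cosh (r : ℝ) : r * ∫ s in (0 : ℝ)..1, cosh (s * r) = sinh r := by
  rcases eq_or_ne r 0 with rfl | hr
  · simp
  · rw [intervalIntegral.integral_comp_mul_right _ hr, smul_eq_mul, ← mul_assoc,
      mul_inv_cancel₀ hr, one_mul, zero_mul, one_mul,
      intervalIntegral.integral_eq_sub_of_hasDerivAt (fun x _ => hasDerivAt_sinh x)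
        (continuous_cosh.intervalIntegrable _ _), sinh_zero, sub_zero]

/-- The kernel away from the centre. -/
theorem AbelDatum.radKer_eq (H : AbelDatum h) {r : ℝ} (hr : 0 < r) :
    radKer h r = -deriv h r / (2 * π * sinh r) := by
  rw [radKer, ← H.integral_num, ← mul_integral_cosh]
  field_simp
  simp only [mul_comm]

theorem AbelDatum.exists_bound (H : AbelDatum h) :
    ∃ R, 0 < R ∧ ∀ r, R ≤ |r| → h r = 0 ∧ deriv h r = 0 ∧ radKer h r = 0 := by
  obtain ⟨R, hR⟩ := (Metric.isBounded_iff_subset_closedBall (0 : ℝ)).1 H.compact.isBounded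
  refine ⟨max R 0 + 1, by positivity, fun r hr => ?_⟩
  have h0 : r ∉ tsupport h := fun hmem => by
    have := hR hmem
    rw [Metric.mem_closedBall, dist_zero_right, Real.norm_eq_abs] at this
    linarith [le_max_left R 0]
  have hd : deriv h r = 0 := image_eq_zero_of_notMem_tsupport fun hm =>
    h0 (tsupport_deriv_subset hm)
  refine ⟨image_eq_zero_of_notMem_tsupport h0, hd, ?_⟩
  have hr0 : r ≠ 0 := fun e => by rw [e, abs_zero] at hr; linarith [le_max_right R 0]
  have : (∫ s in (0 : ℝ)..1, deriv (deriv h) (s * r)) = 0 := by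
    have := H.integral_num r
    rw [hd] at this
    exact (mul_eq_zero.1 this).resolve_left hr0
  simp [radKer, this]

theorem AbelDatum.exists_lipschitz (H : AbelDatum h) :
    ∃ C, LipschitzWith C (radKer h) := by
  obtain ⟨R, hR0, hR⟩ := H.exists_bound
  obtain ⟨L, hL⟩ : ∃ L, LipschitzWith L (deriv (deriv h)) :=
    ⟨_, H.contDiff_deriv2.lipschitzWith_of_hasCompactSupport
      (H.compact.deriv.deriv) one_ne_zero |>.choose_spec⟩
  obtain ⟨M, hM⟩ := H.compact.deriv.deriv.exists_bound_of_continuous H.contDiff_deriv2.continuous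
  set num : ℝ → ℝ := fun r => ∫ s in (0 : ℝ)..1, deriv (deriv h) (s * r)
  set den : ℝ → ℝ := fun r => ∫ s in (0 : ℝ)..1, cosh (s * r)
  have hM0 : 0 ≤ M := (norm_nonneg _).trans (hM 0)
  have hs : ∀ s ∈ uIoc (0 : ℝ) 1, 0 ≤ s ∧ s ≤ 1 := fun s hs => by
    rw [uIoc_of_le zero_le_one] at hs; exact ⟨hs.1.le, hs.2⟩
  have nlip : ∀ a b, |num a - num b| ≤ L * |a - b| := fun a b => by
    simp only [num]
    have hi : ∀ c, IntervalIntegrable (fun s => deriv (deriv h) (s * c)) volume 0 1 := fun c =>
      Continuous.intervalIntegrable (H.contDiff_deriv2.continuous.comp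
        (continuous_id.mul continuous_const)) _ _
    rw [← intervalIntegral.integral_sub (hi a) (hi b)]
    refine le_trans (le_of_eq (Real.norm_eq_abs _).symm)
      (le_trans (intervalIntegral.norm_integral_le_of_norm_le_const (C := L * |a - b|)
        fun s hs' => ?_) (le_of_eq (by norm_num)))
    refine (hL.norm_sub_le (s * a) (s * b)).trans ?_
    rw [← mul_sub, norm_mul, Real.norm_eq_abs, Real.norm_eq_abs, abs_of_nonneg (hs s hs').1]
    exact mul_le_mul_of_nonneg_left (mul_le_of_le_one_left (abs_nonneg _) (hs s hs').2)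
      L.coe_nonneg
  have dlip : ∀ a b, |a| ≤ R → |b| ≤ R → |den a - den b| ≤ sinh R * |a - b| := fun a b ha hb => by
    simp only [den]
    rw [← intervalIntegral.integral_sub
      (Continuous.intervalIntegrable (by fun_prop) _ _)
      (Continuous.intervalIntegrable (by fun_prop) _ _)]
    refine le_trans (le_of_eq (Real.norm_eq_abs _).symm)
      (le_trans (intervalIntegral.norm_integral_le_of_norm_le_const (C := sinh R * |a - b|)
        fun s hs' => ?_) (le_of_eq (by norm_num)))
    have hmem : ∀ c : ℝ, |c| ≤ R → s * c ∈ Icc (-R) R := fun c hc => abs_le.1 (by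
      rw [abs_mul, abs_of_nonneg (hs s hs').1]
      exact (mul_le_of_le_one_left (abs_nonneg _) (hs s hs').2).trans hc)
    have hb1 := Convex.norm_image_sub_le_of_norm_deriv_le
      (f := cosh) (fun x _ => differentiable_cosh.differentiableAt) (C := sinh R) (fun x hx => by
        rw [Real.deriv_cosh, Real.norm_eq_abs, abs_sinh]
        exact sinh_le_sinh.2 (abs_le.2 hx)) (convex_Icc _ _) (hmem b hb) (hmem a ha)
    refine hb1.trans ?_
    rw [← mul_sub, norm_mul, Real.norm_eq_abs, Real.norm_eq_abs, abs_of_nonneg (hs s hs').1]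
    exact mul_le_mul_of_nonneg_left (mul_le_of_le_one_left (abs_nonneg _) (hs s hs').2)
      (sinh_nonneg_iff.2 hR0.le)
  have nbd : ∀ a, |num a| ≤ M := fun a =>
    (intervalIntegral.norm_integral_le_of_norm_le_const fun s _ => hM (s * a)).trans (by simp)
  -- on the interval
  have key : ∀ a b, |a| ≤ R → |b| ≤ R →
      |radKer h a - radKer h b| ≤ (L + M * sinh R) * |a - b| := by
    intro a b ha hb
    have da := one_le_integral_cosh a
    have db := one_le_integral_cosh b
    have hpi : 1 ≤ 2 * π := by linarith [Real.pi_gt_three]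
    have e : radKer h a - radKer h b =
        ((num b - num a) + num a * (den a - den b) / den a) / (2 * π * den b) := by
      have da' : 1 ≤ den a := da
      have db' : 1 ≤ den b := db
      show -num a / (2 * π * den a) - -num b / (2 * π * den b) = _
      generalize num a = na at *
      generalize num b = nb at *
      generalize den a = x at *
      generalize den b = y at *
      field_simp
      ring
    rw [e, abs_div]
    refine (div_le_self (abs_nonneg _) ?_).trans ((abs_add_le _ _).trans ?_)
    · exact (one_le_mul_of_one_le_of_one_le hpi db).trans (le_abs_self _)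
    · rw [add_mul]
      refine add_le_add (abs_sub_comm (num b) (num a) ▸ nlip a b) ?_
      rw [abs_div]
      refine (div_le_self (abs_nonneg _) (da.trans (le_abs_self _))).trans ?_
      rw [abs_mul, mul_assoc]
      exact mul_le_mul (nbd a) (dlip a b ha hb) (abs_nonneg _) hM0
  set cl : ℝ → ℝ := fun r => max (-R) (min R r) with hcl
  have hsame : ∀ r, radKer h (cl r) = radKer h r := fun r => by
    rcases lt_or_ge R r with h1 | h1
    · have e : cl r = R := by simp [hcl, min_eq_left h1.le]; linarith
      rw [e, (hR R (le_abs_self R)).2.2, (hR r (h1.le.trans (le_abs_self r))).2.2]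
    rcases lt_or_ge r (-R) with h2 | h2
    · have e : cl r = -R := by simp [hcl, min_eq_right h1]; linarith
      rw [e, (hR (-R) (by rw [abs_neg]; exact le_abs_self R)).2.2,
        (hR r (by rw [abs_of_neg (by linarith)]; linarith)).2.2]
    · simp [hcl, min_eq_right h1, max_eq_right h2]
  have hmemc : ∀ r, |cl r| ≤ R := fun r =>
    abs_le.2 ⟨le_max_left _ _, max_le (by linarith) (min_le_left _ _)⟩
  refine ⟨((L : ℝ) + M * sinh R).toNNReal, LipschitzWith.of_dist_le_mul fun a b => ?_⟩
  rw [Real.dist_eq, Real.dist_eq, ← hsame a, ← hsame b,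
    Real.coe_toNNReal _ (by positivity)]
  refine (key _ _ (hmemc a) (hmemc b)).trans (mul_le_mul_of_nonneg_left ?_ (by positivity))
  exact (abs_max_sub_max_le_max _ _ _ _).trans
    (by simpa [Real.dist_eq] using abs_min_sub_min_le_max R a R b)

theorem AbelDatum.continuous_radKer (H : AbelDatum h) : Continuous (radKer h) :=
  H.exists_lipschitz.choose_spec.continuous

/-- The horospherical integral of the radial kernel. -/
theorem AbelDatum.integral_radKer (H : AbelDatum h) (l : ℝ) :
    ∫ ζ : ℂ, radKer h (arcosh (cosh l + exp l * Complex.normSq ζ / 2)) = exp (-l) * h l := by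
  obtain ⟨R, hR0, hR⟩ := H.exists_bound
  set c : ℝ → ℝ := fun r => cosh l + exp l * r ^ 2 / 2 with hc
  have hc1 : ∀ r, 1 ≤ c r := fun r =>
    (one_le_cosh l).trans (le_add_of_nonneg_right (by positivity))
  have hcont : Continuous fun r => arcosh (c r) :=
    continuousOn_arcosh.comp_continuous (by fun_prop) hc1
  have hpolar : ∫ ζ : ℂ, radKer h (arcosh (c ‖ζ‖)) =
      2 * π * ∫ r in Ioi (0 : ℝ), r * radKer h (arcosh (c r)) := by
    rw [← Complex.integral_comp_polarCoord_symm, polarCoord_target]
    have : ∀ p : ℝ × ℝ, p ∈ Ioi (0 : ℝ) ×ˢ Ioo (-π) π →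
        p.1 • radKer h (arcosh (c ‖Complex.polarCoord.symm p‖)) =
          (p.1 * radKer h (arcosh (c p.1))) * 1 := fun p hp => by
      simp [abs_of_pos (mem_Ioi.1 hp.1)]
    rw [setIntegral_congr_fun (measurableSet_Ioi.prod measurableSet_Ioo) this,
      Measure.volume_eq_prod, ← Measure.prod_restrict, integral_prod_mul
        (fun r => r * radKer h (arcosh (c r))) (fun _ => (1 : ℝ))]
    rw [integral_const, smul_eq_mul, mul_one, measureReal_restrict_apply_univ,
      Real.volume_real_Ioo_of_le (by linarith [Real.pi_pos])]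
    ring
  set g : ℝ → ℝ := fun r => h (arcosh (c r))
  have hg : ∀ r ∈ Ioi (0 : ℝ),
      HasDerivAt g (-(2 * π * exp l) * (r * radKer h (arcosh (c r)))) r := fun r hr => by
    have hr0 : (0 : ℝ) < r := hr
    have hgt : 1 < c r :=
      (one_le_cosh l).trans_lt (lt_add_of_pos_right _ (by positivity))
    have hd : HasDerivAt c (exp l * r) r := by
      have := (((hasDerivAt_pow 2 r).const_mul (exp l)).div_const 2).const_add (cosh l)
      refine this.congr_deriv ?_
      push_cast
      ring
    refine ((H.diff _).hasDerivAt.comp r ((hasDerivAt_arcosh hgt).comp r hd)).congr_deriv ?_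
    rw [H.radKer_eq (arcosh_pos hgt), sinh_arcosh hgt.le]
    field_simp
    rfl
  have hbig : ∀ r, sqrt (2 * cosh R / exp l) + 1 ≤ r → R ≤ arcosh (c r) := fun r hr => by
    have hr0 : 0 ≤ r := le_trans (by positivity) hr
    have h2 : 2 * cosh R / exp l ≤ r ^ 2 := by
      have := Real.sq_sqrt (show 0 ≤ 2 * cosh R / exp l by positivity)
      nlinarith [Real.sqrt_nonneg (2 * cosh R / exp l)]
    have h3 : cosh R ≤ c r := by
      rw [div_le_iff₀ (exp_pos l)] at h2
      simp only [hc]
      nlinarith [one_le_cosh l]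
    rw [← arcosh_cosh hR0.le]
    exact (arcosh_le_arcosh (cosh_pos R) (lt_of_lt_of_le one_pos (hc1 r))).2 h3
  have habs : ∀ r, R ≤ arcosh (c r) → R ≤ |arcosh (c r)| := fun r hr => hr.trans (le_abs_self _)
  have hlim : Tendsto g atTop (𝓝 0) :=
    tendsto_const_nhds.congr' (eventually_atTop.2
      ⟨_, fun r hr => ((hR _ (habs r (hbig r hr))).1).symm⟩)
  have hint : IntegrableOn (fun r => -(2 * π * exp l) * (r * radKer h (arcosh (c r))))
      (Ioi 0) := by
    refine (Continuous.integrable_of_hasCompactSupport
      (f := fun r => -(2 * π * exp l) * (max r 0 * radKer h (arcosh (c r)))) ?_ ?_).integrableOn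
      |>.congr_fun (fun r hr => by simp [max_eq_left (le_of_lt (mem_Ioi.1 hr))]) measurableSet_Ioi
    · exact continuous_const.mul ((continuous_id.max continuous_const).mul
        (H.continuous_radKer.comp hcont))
    · refine HasCompactSupport.intro (K := Icc 0 (sqrt (2 * cosh R / exp l) + 1))
        isCompact_Icc fun r hr => ?_
      rcases lt_or_ge r 0 with h0 | h0
      · simp [max_eq_right h0.le]
      · have : sqrt (2 * cosh R / exp l) + 1 < r := by
          by_contra hle
          exact hr ⟨h0, not_lt.1 hle⟩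
        simp [(hR _ (habs r (hbig r this.le))).2.2]
  have hftc := integral_Ioi_of_hasDerivAt_of_tendsto (f := g)
    (H.diff.continuous.comp hcont).continuousWithinAt hg hint hlim
  have g0 : g 0 = h l := by
    have : arcosh (c 0) = |l| := by
      rw [show c 0 = cosh |l| by simp [hc, cosh_abs], arcosh_cosh (abs_nonneg _)]
    simp only [g, this]
    rcases abs_choice l with e | e <;> rw [e]
    exact H.even l
  rw [integral_const_mul, g0] at hftc
  have hn : ∀ ζ : ℂ, cosh l + exp l * Complex.normSq ζ / 2 = c ‖ζ‖ := fun ζ => by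
    rw [Complex.normSq_eq_norm_sq]
  simp only [hn]
  rw [hpolar, exp_neg]
  field_simp
  linarith

end FLTAgent.LT.Hyp
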