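import Fermat.Agent.LT.Defs

/-!
# The action on upper half space through positive hermitian matrices

A point `z + t j` corresponds to `t⁻¹ [[|z|² + t², z], [z̄, 1]]`; `g` acts by congruence divided by
`|det g|`.
-/

set_option autoImplicit false

noncomputable section

namespace FLTAgent.LT.Hyp

open Matrix Complex
open scoped ComplexConjugate

/-- The hermitian matrix of a point. -/
def herm (p : H3) : Matrix (Fin 2) (Fin 2) ℂ :=
  (((p.2 : ℝ) : ℂ))⁻¹ • !![p.1 * conj p.1 + ((p.2 : ℝ) : ℂ) ^ 2, p.1; conj p.1, 1]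

theorem snd_ne_zero (p : H3) : ((p.2 : ℝ) : ℂ) ≠ 0 := ofReal_ne_zero.2 (ne_of_gt p.2.2)

theorem den_ne_zero (g : GL (Fin 2) ℂ) (p : H3) : (den g p : ℂ) ≠ 0 :=
  ofReal_ne_zero.2 (den_pos g p).ne'

theorem coe_den (g : GL (Fin 2) ℂ) (p : H3) :
    (den g p : ℂ) = (g 1 0 * p.1 + g 1 1) * conj (g 1 0 * p.1 + g 1 1) +
      g 1 0 * conj (g 1 0) * ((p.2 : ℝ) : ℂ) ^ 2 := by
  rw [Complex.mul_conj, Complex.mul_conj, den]
  push_cast
  ring

theorem coe_act_fst (g : GL (Fin 2) ℂ) (p : H3) :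
    (act g p).1 = ((g 0 0 * p.1 + g 0 1) * conj (g 1 0 * p.1 + g 1 1) +
      g 0 0 * conj (g 1 0) * ((p.2 : ℝ) : ℂ) ^ 2) / (den g p : ℂ) := by
  simp [act]

theorem coe_act_snd (g : GL (Fin 2) ℂ) (p : H3) :
    ((act g p).2 : ℝ) = ‖(Matrix.GeneralLinearGroup.det g : ℂ)‖ * (p.2 : ℝ) / den g p := rfl

theorem herm_injective : Function.Injective herm := by
  intro p q h
  have h11 := congrFun (congrFun h 1) 1
  have h01 := congrFun (congrFun h 0) 1
  simp [herm] at h11 h01
  have ht : (p.2 : ℝ) = q.2 := by exact_mod_cast h11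
  rw [ht] at h01
  exact Prod.ext (mul_left_cancel₀ (inv_ne_zero (snd_ne_zero q)) h01) (Subtype.ext ht)

theorem smul_herm_act (g : GL (Fin 2) ℂ) (p : H3) (num : ℂ)
    (hnum : num = (g 0 0 * p.1 + g 0 1) * conj (g 1 0 * p.1 + g 1 1) +
      g 0 0 * conj (g 1 0) * ((p.2 : ℝ) : ℂ) ^ 2) :
    (‖(Matrix.GeneralLinearGroup.det g : ℂ)‖ : ℂ) • herm (act g p) =
      (((p.2 : ℝ) : ℂ))⁻¹ • !![(num * conj num +
          (‖(Matrix.GeneralLinearGroup.det g : ℂ)‖ : ℂ) ^ 2 * ((p.2 : ℝ) : ℂ) ^ 2) / (den g p : ℂ),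
        num; conj num, (den g p : ℂ)] := by
  have ht := snd_ne_zero p
  have hd := den_ne_zero g p
  obtain ⟨n, hn⟩ : ∃ n : ℝ, n = ‖(Matrix.GeneralLinearGroup.det g : ℂ)‖ := ⟨_, rfl⟩
  have hn0 : (n : ℂ) ≠ 0 :=
    ofReal_ne_zero.2 (hn ▸ norm_ne_zero_iff.2 (Matrix.GeneralLinearGroup.det g).ne_zero)
  rw [← hn, herm, coe_act_fst, coe_act_snd, ← hn, ← hnum, map_div₀, conj_ofReal]
  ext i j
  fin_cases i <;> fin_cases j <;> simp <;> field_simp

/-- The action is congruence. -/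
theorem mul_herm_mul (g : GL (Fin 2) ℂ) (p : H3) :
    (g : Matrix (Fin 2) (Fin 2) ℂ) * herm p * (g : Matrix (Fin 2) (Fin 2) ℂ)ᴴ =
      (‖(Matrix.GeneralLinearGroup.det g : ℂ)‖ : ℂ) • herm (act g p) := by
  have hd := den_ne_zero g p
  have hn : (‖(Matrix.GeneralLinearGroup.det g : ℂ)‖ : ℂ) ^ 2 =
      (g 0 0 * g 1 1 - g 0 1 * g 1 0) * conj (g 0 0 * g 1 1 - g 0 1 * g 1 0) := by
    rw [← Complex.mul_conj']
    simp [Matrix.det_fin_two]
  rw [smul_herm_act g p _ rfl, herm, Matrix.mul_smul, Matrix.smul_mul, hn, coe_den]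
  rw [coe_den] at hd
  congr 1
  ext i j
  fin_cases i <;> fin_cases j <;>
    simp [Matrix.mul_apply, Fin.sum_univ_two]
  · rw [eq_div_iff (by simpa [map_add, map_mul] using hd)]
    ring
  · ring
  · ring
  · ring

theorem act_one (p : H3) : act 1 p = p := by
  refine herm_injective ?_
  have h := mul_herm_mul 1 p
  simpa using h.symm

theorem act_mul (g h : GL (Fin 2) ℂ) (p : H3) : act (g * h) p = act g (act h p) := by
  refine herm_injective ?_
  have hdet : (‖(Matrix.GeneralLinearGroup.det (g * h) : ℂ)‖ : ℂ) ≠ 0 :=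
    ofReal_ne_zero.2 (norm_ne_zero_iff.2 (Matrix.GeneralLinearGroup.det (g * h)).ne_zero)
  refine smul_right_injective _ hdet ?_
  show (‖(Matrix.GeneralLinearGroup.det (g * h) : ℂ)‖ : ℂ) • _ =
    (‖(Matrix.GeneralLinearGroup.det (g * h) : ℂ)‖ : ℂ) • _
  conv_lhs => rw [← mul_herm_mul, Units.val_mul, conjTranspose_mul,
    show (g : Matrix (Fin 2) (Fin 2) ℂ) * (h : Matrix (Fin 2) (Fin 2) ℂ) * herm p *
        ((h : Matrix (Fin 2) (Fin 2) ℂ)ᴴ * (g : Matrix (Fin 2) (Fin 2) ℂ)ᴴ) =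
      (g : Matrix (Fin 2) (Fin 2) ℂ) *
        ((h : Matrix (Fin 2) (Fin 2) ℂ) * herm p * (h : Matrix (Fin 2) (Fin 2) ℂ)ᴴ) *
        (g : Matrix (Fin 2) (Fin 2) ℂ)ᴴ by simp only [Matrix.mul_assoc],
    mul_herm_mul, Matrix.mul_smul, Matrix.smul_mul, mul_herm_mul, smul_smul]
  congr 1
  simp [mul_comm]

theorem act_inv_act (g : GL (Fin 2) ℂ) (p : H3) : act g⁻¹ (act g p) = p := by
  rw [← act_mul, inv_mul_cancel, act_one]

theorem act_act_inv (g : GL (Fin 2) ℂ) (p : H3) : act g (act g⁻¹ p) = p := by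
  rw [← act_mul, mul_inv_cancel, act_one]

/-- The action as a permutation. -/
def actEquiv (g : GL (Fin 2) ℂ) : H3 ≃ H3 where
  toFun := act g
  invFun := act g⁻¹
  left_inv := act_inv_act g
  right_inv := act_act_inv g

theorem coe_coshDist (p q : H3) :
    (coshDist p q : ℂ) = (adjugate (herm p) * herm q).trace / 2 := by
  have hp := snd_ne_zero p
  have hq := snd_ne_zero q
  simp [herm, coshDist, Matrix.adjugate_fin_two, Matrix.trace_fin_two, Matrix.mul_apply,
    Fin.sum_univ_two, Complex.normSq_eq_conj_mul_self]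
  field_simp
  ring

/-- The action preserves the distance. -/
theorem coshDist_act (g : GL (Fin 2) ℂ) (p q : H3) :
    coshDist (act g p) (act g q) = coshDist p q := by
  apply ofReal_injective
  rw [coe_coshDist, coe_coshDist]
  set G : Matrix (Fin 2) (Fin 2) ℂ := g.val
  set n : ℂ := (‖(Matrix.GeneralLinearGroup.det g : ℂ)‖ : ℂ)
  have hn : n ≠ 0 :=
    ofReal_ne_zero.2 (norm_ne_zero_iff.2 (Matrix.GeneralLinearGroup.det g).ne_zero)
  have e : ∀ r, herm (act g r) = n⁻¹ • (G * herm r * Gᴴ) := fun r => by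
    rw [mul_herm_mul, smul_smul, inv_mul_cancel₀ hn, one_smul]
  have hdet : G.det * conj G.det = n ^ 2 := by
    rw [Complex.mul_conj']
    rfl
  rw [e, e, adjugate_smul, Fintype.card_fin, show (2 : ℕ) - 1 = 1 from rfl, pow_one,
    Matrix.smul_mul, Matrix.mul_smul, smul_smul, trace_smul, adjugate_mul_distrib,
    adjugate_mul_distrib, smul_eq_mul]
  have e2 : (adjugate Gᴴ * (adjugate (herm p) * adjugate G) * (G * herm q * Gᴴ)).trace =
      G.det * conj G.det * (adjugate (herm p) * herm q).trace := by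
    rw [show adjugate Gᴴ * (adjugate (herm p) * adjugate G) * (G * herm q * Gᴴ) =
      adjugate Gᴴ * adjugate (herm p) * (adjugate G * G) * herm q * Gᴴ by
      simp only [Matrix.mul_assoc], adjugate_mul, Matrix.mul_smul, Matrix.mul_one,
      Matrix.smul_mul, Matrix.smul_mul, trace_smul, smul_eq_mul, Matrix.trace_mul_comm,
      ← Matrix.mul_assoc, ← Matrix.mul_assoc, mul_adjugate, det_conjTranspose, Matrix.smul_mul,
      Matrix.smul_mul, Matrix.one_mul, trace_smul, smul_eq_mul, Complex.star_def]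
    ring
  rw [e2, hdet]
  field_simp

theorem coshDist_comm (p q : H3) : coshDist p q = coshDist q p := by
  rw [coshDist, coshDist, Complex.normSq_sub, Complex.normSq_sub]
  simp only [Complex.mul_re, Complex.conj_re, Complex.conj_im]
  ring

theorem one_le_coshDist (p q : H3) : 1 ≤ coshDist p q := by
  have hp : (0 : ℝ) < p.2 := p.2.2
  have hq : (0 : ℝ) < q.2 := q.2.2
  exact le_add_of_nonneg_right
    (div_nonneg (add_nonneg (Complex.normSq_nonneg _) (sq_nonneg _)) (by positivity))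

theorem continuous_act (g : GL (Fin 2) ℂ) : Continuous (act g) := by
  have hden : ∀ p : H3, den g p ≠ 0 := fun p => (den_pos g p).ne'
  have hc : Continuous (den g) := by unfold den; fun_prop
  refine Continuous.prodMk ?_ (Continuous.subtype_mk ?_ _)
  · exact Continuous.div (by fun_prop) (continuous_ofReal.comp hc)
      fun p => ofReal_ne_zero.2 (hden p)
  · exact Continuous.div (by fun_prop) hc hden

theorem continuous_coshDist : Continuous fun x : H3 × H3 => coshDist x.1 x.2 := by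
  unfold coshDist
  refine continuous_const.add (Continuous.div (by fun_prop) (by fun_prop) fun x => ?_)
  have hp : (0 : ℝ) < x.1.2 := x.1.2.2
  have hq : (0 : ℝ) < x.2.2 := x.2.2.2
  positivity

end FLTAgent.LT.Hyp
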