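import Fermat.Agent.LT.Hyp.Measure
import Fermat.Agent.LT.TF.Defs
import Mathlib.Analysis.SpecialFunctions.Arcosh
import Mathlib.MeasureTheory.Function.JacobianOneDim
import Mathlib.MeasureTheory.Constructions.Pi
import Mathlib.MeasureTheory.Integral.Pi

/-!
Horospherical coordinates on upper half space: in `(l, ζ) ↦ (z₀ + t₀ eˡ ζ, t₀ eˡ)` the invariant
measure is Lebesgue measure.
-/

set_option autoImplicit false

noncomputable section

namespace FLTAgent.LT.Hyp

open MeasureTheory Real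
open scoped ENNReal

/-- Horospherical coordinates based at `x`. -/
def horo (x : H3) (y : ℝ × ℂ) : H3 :=
  (x.1 + (((x.2 : ℝ) * exp y.1 : ℝ) : ℂ) * y.2,
    ⟨(x.2 : ℝ) * exp y.1, mul_pos x.2.2 (exp_pos _)⟩)

theorem horo_fst (x : H3) (y : ℝ × ℂ) :
    (horo x y).1 = x.1 + (((x.2 : ℝ) * exp y.1 : ℝ) : ℂ) * y.2 := rfl

theorem horo_snd (x : H3) (y : ℝ × ℂ) : ((horo x y).2 : ℝ) = (x.2 : ℝ) * exp y.1 := rfl

theorem log_horo_snd (x : H3) (y : ℝ × ℂ) :
    Real.log ((horo x y).2 : ℝ) = Real.log (x.2 : ℝ) + y.1 := by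
  rw [horo_snd, Real.log_mul (ne_of_gt x.2.2) (exp_pos _).ne', Real.log_exp]

theorem continuous_horo (x : H3) : Continuous (horo x) := by
  refine Continuous.prodMk (f := fun y : ℝ × ℂ => x.1 + (((x.2 : ℝ) * exp y.1 : ℝ) : ℂ) * y.2)
    ?_ (Continuous.subtype_mk ?_ _)
  · fun_prop
  · fun_prop

/-- The base point `j`. -/
def basePt : H3 := (0, ⟨1, Set.mem_Ioi.2 zero_lt_one⟩)

/-- The inverse coordinates. -/
def horoInv (x : H3) (q : H3) : ℝ × ℂ :=
  (Real.log (q.2 : ℝ) - Real.log (x.2 : ℝ), ((q.2 : ℝ) : ℂ)⁻¹ * (q.1 - x.1))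

theorem exp_horoInv (x q : H3) : (x.2 : ℝ) * exp (horoInv x q).1 = q.2 := by
  rw [horoInv, Real.exp_sub, Real.exp_log q.2.2, Real.exp_log x.2.2,
    mul_div_cancel₀ _ (ne_of_gt x.2.2)]

/-- The coordinates as a measurable equivalence. -/
def horoEquiv (x : H3) : ℝ × ℂ ≃ᵐ H3 where
  toFun := horo x
  invFun := horoInv x
  left_inv y := by
    refine Prod.ext ?_ ?_
    · simp [horoInv, log_horo_snd]
    · have h : ((((x.2 : ℝ) * exp y.1 : ℝ) : ℂ)) ≠ 0 :=
        Complex.ofReal_ne_zero.2 (mul_pos x.2.2 (exp_pos _)).ne'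
      simp only [horoInv, horo_snd, horo_fst, add_sub_cancel_left]
      rw [← mul_assoc, inv_mul_cancel₀ h, one_mul]
  right_inv q := by
    refine Prod.ext ?_ (Subtype.ext (exp_horoInv x q))
    have h : (((q.2 : ℝ)) : ℂ) ≠ 0 := snd_ne_zero q
    rw [horo_fst, exp_horoInv, horoInv]
    simp only
    rw [← mul_assoc, mul_inv_cancel₀ h, one_mul, add_sub_cancel]
  measurable_toFun := (continuous_horo x).measurable
  measurable_invFun := by
    refine Measurable.prodMk ?_ ?_
    · fun_prop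
    · fun_prop

theorem act_horo (x : H3) (y : ℝ × ℂ) :
    act (upperC ((x.2 : ℝ) : ℂ) x.1 1 (snd_ne_zero x) one_ne_zero)
      (horo basePt y) = horo x y := by
  refine measurableEmbedding_emb.injective ?_
  rw [act_upperC]
  refine Prod.ext ?_ ?_
  · simp [emb, horo, basePt]
    ring
  · simp [emb, horo, basePt, abs_of_pos (Set.mem_Ioi.1 x.2.2)]

theorem lintegral_horo_base {f : H3 → ℝ≥0∞} (hf : Measurable f) :
    ∫⁻ y, f (horo basePt y) = ∫⁻ p, f p ∂hypMeasure := by
  set j : H3 := basePt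
  have hm : Measurable fun x : ℂ × ℝ => ENNReal.ofReal ((x.2 ^ 3)⁻¹) * liftFun f x :=
    (by fun_prop : Measurable fun x : ℂ × ℝ => ENNReal.ofReal ((x.2 ^ 3)⁻¹)).mul
      (measurable_liftFun hf)
  have hvol : (volume : Measure (ℂ × ℝ)) = (volume : Measure ℂ).prod volume :=
    Measure.volume_eq_prod ℂ ℝ
  have hvol' : (volume : Measure (ℝ × ℂ)) = (volume : Measure ℝ).prod volume :=
    Measure.volume_eq_prod ℝ ℂ
  rw [lintegral_hyp hf, hvol, lintegral_prod_symm _ hm.aemeasurable, hvol',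
    lintegral_prod (fun y => f (horo j y)) (hf.comp (continuous_horo j).measurable).aemeasurable]
  set G : ℝ → ℝ≥0∞ := fun t => ∫⁻ z : ℂ, ENNReal.ofReal ((t ^ 3)⁻¹) * liftFun f (z, t)
  have hG0 : ∀ t ∉ Set.Ioi (0 : ℝ), G t = 0 := fun t ht => by
    simp [G, liftFun, show ¬ 0 < t from ht]
  have e1 : ∫⁻ t, G t = ∫⁻ l, ENNReal.ofReal |exp l| * G (exp l) := by
    rw [← setLIntegral_univ fun l => ENNReal.ofReal |exp l| * G (exp l),
      ← lintegral_image_eq_lintegral_abs_deriv_mul MeasurableSet.univ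
        (fun l _ => (Real.hasDerivAt_exp l).hasDerivWithinAt) exp_injective.injOn,
      Set.image_univ, Real.range_exp, ← lintegral_indicator measurableSet_Ioi]
    refine lintegral_congr fun t => ?_
    by_cases ht : t ∈ Set.Ioi (0 : ℝ)
    · rw [Set.indicator_of_mem ht]
    · rw [Set.indicator_of_notMem ht, hG0 t ht]
  show _ = ∫⁻ t, G t
  rw [e1]
  refine lintegral_congr fun l => ?_
  have hl : (0 : ℝ) < exp l := exp_pos l
  set g : ℂ → ℝ≥0∞ := fun z => f (z, ⟨exp l, hl⟩)
  have hg : Measurable g := hf.comp (measurable_id.prodMk measurable_const)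
  have hfr : ∀ ζ, f (horo j (l, ζ)) = g (exp l • ζ) := fun ζ => by
    simp [g, horo, j, basePt, Complex.real_smul]
  have hGl : G (exp l) = ENNReal.ofReal ((exp l ^ 3)⁻¹) * ∫⁻ z, g z := by
    simp only [G]
    rw [lintegral_const_mul]
    · refine congrArg _ (lintegral_congr fun z => ?_)
      simp [liftFun, hl, g]
    · exact (measurable_liftFun hf).comp (measurable_id.prodMk measurable_const)
  simp only [hfr, hGl]
  rw [← lintegral_map hg (measurable_const_smul (exp l)),
    Measure.map_addHaar_smul (volume : Measure ℂ) hl.ne', lintegral_smul_measure, smul_eq_mul,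
    ← mul_assoc, ← ENNReal.ofReal_mul (abs_nonneg _), Complex.finrank_real_complex]
  congr 2
  rw [abs_of_pos hl, abs_of_pos (by positivity : (0 : ℝ) < (exp l ^ 2)⁻¹)]
  field_simp

theorem measurePreserving_horo (x : H3) : MeasurePreserving (horo x) volume hypMeasure := by
  refine ⟨(continuous_horo x).measurable, Measure.ext fun s hs => ?_⟩
  set g := upperC ((x.2 : ℝ) : ℂ) x.1 1 (snd_ne_zero x) one_ne_zero
  have hm : Measurable fun p => s.indicator (1 : H3 → ℝ≥0∞) (act g p) :=
    (measurable_one.indicator hs).comp (measurable_act g)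
  have h1 := lintegral_horo_base hm
  simp only [g, act_horo] at h1
  rw [preserves _ _ (measurable_one.indicator hs), lintegral_indicator_one hs] at h1
  rw [Measure.map_apply (continuous_horo x).measurable hs,
    ← lintegral_indicator_one ((continuous_horo x).measurable hs), ← h1]
  rfl

theorem coshDist_horo (x : H3) (y : ℝ × ℂ) :
    coshDist x (horo x y) = cosh y.1 + exp y.1 * Complex.normSq y.2 / 2 := by
  obtain ⟨l, ζ⟩ := y
  have ht : (0 : ℝ) < x.2 := x.2.2
  have he : 0 < exp l := exp_pos l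
  rw [coshDist, horo_fst, horo_snd, sub_add_cancel_left, Complex.normSq_neg, map_mul,
    Complex.normSq_ofReal, Real.cosh_eq, Real.exp_neg]
  field_simp
  ring

end FLTAgent.LT.Hyp
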