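import Fermat.Agent.LT.Hyp.Radial

/-!
# Moments of the coordinates of the unit hyperboloid against functions of the distance

With `ρ = coshDist org q` the functions `1/s - ρ`, `x/s`, `y/s` have sum of squares `ρ² - 1`, mean
zero and equal second moments, by invariance alone.
-/

set_option autoImplicit false

noncomputable section

namespace FLTAgent.LT.Hyp

open MeasureTheory Complex Set
open scoped Real ComplexConjugate ENNReal

/-- `cosh` of the distance to the base point. -/
def rho (q : H3) : ℝ := coshDist org q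

/-- First coordinate. -/
def coU (q : H3) : ℝ := 1 / (q.2 : ℝ) - rho q

/-- Second coordinate. -/
def coV (q : H3) : ℝ := q.1.re / (q.2 : ℝ)

/-- Third coordinate. -/
def coW (q : H3) : ℝ := q.1.im / (q.2 : ℝ)

theorem rho_eq (q : H3) :
    rho q = (q.1.re ^ 2 + q.1.im ^ 2 + (q.2 : ℝ) ^ 2 + 1) / (2 * (q.2 : ℝ)) := by
  have h := coshDist_org q.1 (q.2 : ℝ) q.2.2
  rw [rho, h, Complex.sq_norm, Complex.normSq_apply]
  ring

theorem sum_sq_co (q : H3) : coU q ^ 2 + coV q ^ 2 + coW q ^ 2 = rho q ^ 2 - 1 := by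
  have ht : (q.2 : ℝ) ≠ 0 := ne_of_gt q.2.2
  simp only [coU, coV, coW, rho_eq]
  field_simp
  ring

theorem one_le_rho (q : H3) : 1 ≤ rho q := one_le_coshDist _ _

theorem abs_co_le (q : H3) : |coU q| ≤ rho q ∧ |coV q| ≤ rho q ∧ |coW q| ≤ rho q := by
  have h := sum_sq_co q
  have h1 := one_le_rho q
  refine ⟨?_, ?_, ?_⟩ <;> refine abs_le_of_sq_le_sq ?_ (by linarith) <;>
    nlinarith [sq_nonneg (coU q), sq_nonneg (coV q), sq_nonneg (coW q)]

theorem continuous_rho : Continuous rho :=
  continuous_coshDist.comp (continuous_const.prodMk continuous_id)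

theorem continuous_coU : Continuous coU :=
  (continuous_const.div (continuous_subtype_val.comp continuous_snd) fun q => ne_of_gt q.2.2).sub
    continuous_rho

theorem continuous_coV : Continuous coV :=
  (Complex.continuous_re.comp continuous_fst).div (continuous_subtype_val.comp continuous_snd)
    fun q => ne_of_gt q.2.2

theorem continuous_coW : Continuous coW :=
  (Complex.continuous_im.comp continuous_fst).div (continuous_subtype_val.comp continuous_snd)
    fun q => ne_of_gt q.2.2

/-- The finite volume of balls. -/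
theorem measure_rho_le_lt_top (R : ℝ) : hypMeasure {q | rho q ≤ R} < ⊤ := by
  have hF : Measurable ((Iic R).indicator (1 : ℝ → ℝ≥0∞)) := measurable_one.indicator measurableSet_Iic
  have h := lintegral_radial_org hF
  have e : ∫⁻ q, (Iic R).indicator (1 : ℝ → ℝ≥0∞) (coshDist org q) ∂hypMeasure =
      hypMeasure {q | rho q ≤ R} := by
    rw [← lintegral_indicator_one (measurableSet_le continuous_rho.measurable measurable_const)]
    rfl
  rw [← e, h]
  have hb : ∀ r ∈ Ioi (0 : ℝ), ENNReal.ofReal (4 * π * Real.sinh r ^ 2) *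
      (Iic R).indicator (1 : ℝ → ℝ≥0∞) (Real.cosh r) ≤
      (Ioc 0 (Real.arcosh (max R 1))).indicator
        (fun _ => ENNReal.ofReal (4 * π * max R 1 ^ 2)) r := by
    intro r hr
    by_cases hR : Real.cosh r ≤ R
    · rw [Set.indicator_of_mem (show Real.cosh r ∈ Iic R from hR), Pi.one_apply, mul_one,
        Set.indicator_of_mem ?_]
      · refine ENNReal.ofReal_le_ofReal (mul_le_mul_of_nonneg_left ?_ (by positivity))
        have hs : 0 ≤ Real.sinh r := Real.sinh_nonneg_iff.2 (le_of_lt hr)
        refine pow_le_pow_left₀ hs ?_ 2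
        exact (Real.sinh_lt_cosh r).le.trans (hR.trans (le_max_left _ _))
      · refine ⟨hr, ?_⟩
        rw [← Real.arcosh_cosh (le_of_lt hr)]
        exact (Real.arcosh_le_arcosh (Real.cosh_pos r) (by positivity)).2
          (hR.trans (le_max_left _ _))
    · rw [Set.indicator_of_notMem (show Real.cosh r ∉ Iic R from hR), mul_zero]
      exact zero_le
  refine lt_of_le_of_lt (setLIntegral_mono (measurable_const.indicator measurableSet_Ioc) hb) ?_
  refine lt_of_le_of_lt (setLIntegral_le_lintegral _ _) ?_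
  rw [lintegral_indicator measurableSet_Ioc, setLIntegral_const, Real.volume_Ioc]
  exact ENNReal.mul_lt_top ENNReal.ofReal_lt_top ENNReal.ofReal_lt_top

/-- A continuous function vanishing outside a ball is integrable. -/
theorem integrable_of_rho_support {E : Type*} [NormedAddCommGroup E] [SecondCountableTopology E]
    {f : H3 → E} (hf : Continuous f) {R C : ℝ} (hR : ∀ q, R < rho q → f q = 0)
    (hC : ∀ q, rho q ≤ R → ‖f q‖ ≤ C) : Integrable f hypMeasure := by
  have hS : MeasurableSet {q | rho q ≤ R} :=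
    measurableSet_le continuous_rho.measurable measurable_const
  refine Integrable.mono' (g := {q | rho q ≤ R}.indicator fun _ => C) ?_
    hf.aestronglyMeasurable (ae_of_all _ fun q => ?_)
  · exact (integrable_indicator_iff hS).2 (integrableOn_const (measure_rho_le_lt_top R).ne)
  · by_cases h : rho q ≤ R
    · rw [Set.indicator_of_mem (show q ∈ {q | rho q ≤ R} from h)]
      exact hC q h
    · rw [Set.indicator_of_notMem (show q ∉ {q | rho q ≤ R} from h), hR q (not_le.1 h), norm_zero]

/-- The matrix moving the base point to `p`. -/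
def toPt (p : H3) : GL (Fin 2) ℂ :=
  upperC ((p.2 : ℝ) : ℂ) p.1 1 (snd_ne_zero p) one_ne_zero

theorem emb_act_toPt (p q : H3) :
    emb (act (toPt p) q) = (((p.2 : ℝ) : ℂ) * q.1 + p.1, (p.2 : ℝ) * (q.2 : ℝ)) := by
  rw [toPt, act_upperC]
  simp [abs_of_pos (show (0 : ℝ) < p.2 from p.2.2)]

theorem act_toPt_org (p : H3) : act (toPt p) org = p := by
  refine measurableEmbedding_emb.injective ?_
  rw [emb_act_toPt]
  simp [org, emb]

/-- Integrals of nonnegative functions of the distance. -/
theorem integral_radial {f : ℝ → ℝ} (hf : Continuous f) (h0 : ∀ x, 0 ≤ f x) (p : H3) :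
    ∫ q, f (coshDist p q) ∂hypMeasure =
      ∫ r in Ioi (0 : ℝ), 4 * π * Real.sinh r ^ 2 * f (Real.cosh r) := by
  have e : ∫ q, f (coshDist p q) ∂hypMeasure = ∫ q, f (coshDist org q) ∂hypMeasure := by
    conv_lhs => rw [← integral_act (toPt p) fun q => f (coshDist p q)]
    refine integral_congr_ae (ae_of_all _ fun q => ?_)
    show f (coshDist p (act (toPt p) q)) = f (coshDist org q)
    have h := coshDist_act (toPt p) org q
    rw [act_toPt_org] at h
    rw [h]
  rw [e, integral_eq_lintegral_of_nonneg_ae (ae_of_all _ fun q => h0 _)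
    (show Continuous fun q => f (coshDist org q) from hf.comp continuous_rho).aestronglyMeasurable,
    integral_eq_lintegral_of_nonneg_ae (ae_of_all _ fun r => by
      have := h0 (Real.cosh r)
      positivity) (by fun_prop),
    lintegral_radial_org (F := fun x => ENNReal.ofReal (f x)) (by fun_prop)]
  congr 1
  refine lintegral_congr fun r => ?_
  rw [← ENNReal.ofReal_mul (by positivity)]

/-- The bump `max 0 (1 + δ - ρ)`. -/
def bump (δ ρ : ℝ) : ℝ := max 0 (1 + δ - ρ)

theorem continuous_bump (δ : ℝ) : Continuous (bump δ) := by unfold bump; fun_prop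

theorem bump_nonneg (δ ρ : ℝ) : 0 ≤ bump δ ρ := le_max_left _ _

theorem bump_eq_zero {δ ρ : ℝ} (h : 1 + δ ≤ ρ) : bump δ ρ = 0 := max_eq_left (by linarith)

/-- The compactly supported radial functions used. -/
theorem integrable_bump_mul {δ : ℝ} {f : H3 → ℝ} (hf : Continuous f) {C : ℝ}
    (hC : ∀ q, rho q ≤ 1 + δ → |f q| ≤ C) :
    Integrable (fun q => bump δ (rho q) * f q) hypMeasure := by
  refine integrable_of_rho_support (((continuous_bump δ).comp continuous_rho).mul hf) (R := 1 + δ)
    (C := |δ| * C) (fun q h => by simp [bump_eq_zero h.le]) fun q h => ?_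
  rw [Real.norm_eq_abs, abs_mul, abs_of_nonneg (bump_nonneg _ _)]
  refine mul_le_mul ?_ (hC q h) (abs_nonneg _) (abs_nonneg δ)
  exact max_le (abs_nonneg _) (by linarith [le_abs_self δ, one_le_rho q])

theorem rho_act_fix {g : GL (Fin 2) ℂ} (hg : act g org = org) (q : H3) : rho (act g q) = rho q := by
  conv_lhs => rw [rho, ← hg]
  exact coshDist_act g org q

theorem integral_bump_symm {δ : ℝ} {g : GL (Fin 2) ℂ} (hg : act g org = org) {f f' : H3 → ℝ}
    (h : ∀ q, f (act g q) = f' q) :
    ∫ q, bump δ (rho q) * f' q ∂hypMeasure = ∫ q, bump δ (rho q) * f q ∂hypMeasure := by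
  rw [← integral_act g fun q => bump δ (rho q) * f q]
  refine integral_congr_ae (ae_of_all _ fun q => ?_)
  simp only [rho_act_fix hg, h]

/-- Multiplication of `z` by `-1`. -/
def negZ : GL (Fin 2) ℂ := upperC (-1) 0 1 (by norm_num) one_ne_zero

/-- Multiplication of `z` by `i`. -/
def rotZ : GL (Fin 2) ℂ := upperC I 0 1 I_ne_zero one_ne_zero

/-- The rotation by a right angle in the vertical plane. -/
def rotU : GL (Fin 2) ℂ :=
  Matrix.GeneralLinearGroup.mkOfDetNeZero !![1, -1; 1, 1] (by norm_num [Matrix.det_fin_two])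

theorem co_negZ (q : H3) : act negZ org = org ∧ coV (act negZ q) = -coV q ∧
    coW (act negZ q) = -coW q ∧ coU (act negZ q) = coU q := by
  have h : ∀ r, emb (act negZ r) = (-r.1, (r.2 : ℝ)) := fun r => by simp [negZ, act_upperC]
  have horg : act negZ org = org := measurableEmbedding_emb.injective (by rw [h]; simp [org, emb])
  have h1 : (act negZ q).1 = -q.1 := congrArg Prod.fst (h q)
  have h2 : ((act negZ q).2 : ℝ) = q.2 := congrArg Prod.snd (h q)
  refine ⟨horg, ?_, ?_, ?_⟩ <;> simp [coU, coV, coW, h1, h2, rho_act_fix horg, neg_div]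

theorem co_rotZ (q : H3) : act rotZ org = org ∧ coV (act rotZ q) = -coW q ∧
    coW (act rotZ q) = coV q := by
  have h : ∀ r, emb (act rotZ r) = (I * r.1, (r.2 : ℝ)) := fun r => by simp [rotZ, act_upperC]
  have horg : act rotZ org = org := measurableEmbedding_emb.injective (by rw [h]; simp [org, emb])
  have h1 : (act rotZ q).1 = I * q.1 := congrArg Prod.fst (h q)
  have h2 : ((act rotZ q).2 : ℝ) = q.2 := congrArg Prod.snd (h q)
  refine ⟨horg, ?_, ?_⟩ <;> simp [coV, coW, h1, h2, neg_div]

theorem co_invC (q : H3) : act invC org = org ∧ coU (act invC q) = -coU q := by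
  have horg : act invC org = org := by
    refine measurableEmbedding_emb.injective (Prod.ext ?_ ?_) <;>
      simp [emb, org, act, invC, den, Matrix.det_fin_two]
  refine ⟨horg, ?_⟩
  have ht : (q.2 : ℝ) ≠ 0 := ne_of_gt q.2.2
  have h2 : ((act invC q).2 : ℝ) = (q.2 : ℝ) / (q.1.re ^ 2 + q.1.im ^ 2 + (q.2 : ℝ) ^ 2) := by
    simp [coe_act_snd, invC, den, Matrix.det_fin_two, Complex.normSq_apply, sq]
  simp only [coU, rho_act_fix horg, h2, rho_eq]
  field_simp
  ring

theorem co_rotU (q : H3) : act rotU org = org ∧ coU (act rotU q) = coV q := by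
  have horg : act rotU org = org := by
    refine measurableEmbedding_emb.injective (Prod.ext ?_ ?_)
    · simp [emb, org, act, rotU, den]
    · simp [emb, org, act, rotU, den, Matrix.det_fin_two]
      norm_num
  refine ⟨horg, ?_⟩
  have ht : (q.2 : ℝ) ≠ 0 := ne_of_gt q.2.2
  have h2 : ((act rotU q).2 : ℝ) =
      2 * (q.2 : ℝ) / ((q.1.re + 1) ^ 2 + q.1.im ^ 2 + (q.2 : ℝ) ^ 2) := by
    simp [coe_act_snd, rotU, den, Matrix.det_fin_two, Complex.normSq_apply, sq]
    norm_num
  simp only [coU, coV, rho_act_fix horg, h2, rho_eq]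
  field_simp
  ring

/-- First moments. -/
theorem moments_one (δ : ℝ) : ∫ q, bump δ (rho q) * coU q ∂hypMeasure = 0 ∧
    ∫ q, bump δ (rho q) * coV q ∂hypMeasure = 0 ∧ ∫ q, bump δ (rho q) * coW q ∂hypMeasure = 0 := by
  have key : ∀ (g : GL (Fin 2) ℂ) (f : H3 → ℝ), act g org = org → (∀ q, f (act g q) = -f q) →
      ∫ q, bump δ (rho q) * f q ∂hypMeasure = 0 := fun g f hg hf => by
    have := integral_bump_symm (δ := δ) hg hf
    simp only [mul_neg, integral_neg] at this
    linarith
  exact ⟨key invC _ (co_invC org).1 fun q => (co_invC q).2,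
    key negZ _ (co_negZ org).1 fun q => (co_negZ q).2.1,
    key negZ _ (co_negZ org).1 fun q => (co_negZ q).2.2.1⟩

/-- Mixed second moments. -/
theorem moments_mixed (δ : ℝ) : ∫ q, bump δ (rho q) * (coU q * coV q) ∂hypMeasure = 0 ∧
    ∫ q, bump δ (rho q) * (coU q * coW q) ∂hypMeasure = 0 ∧
    ∫ q, bump δ (rho q) * (coV q * coW q) ∂hypMeasure = 0 := by
  have key : ∀ (g : GL (Fin 2) ℂ) (f : H3 → ℝ), act g org = org → (∀ q, f (act g q) = -f q) →
      ∫ q, bump δ (rho q) * f q ∂hypMeasure = 0 := fun g f hg hf => by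
    have := integral_bump_symm (δ := δ) hg hf
    simp only [mul_neg, integral_neg] at this
    linarith
  refine ⟨key negZ _ (co_negZ org).1 fun q => ?_, key negZ _ (co_negZ org).1 fun q => ?_,
    key rotZ _ (co_rotZ org).1 fun q => ?_⟩
  · rw [(co_negZ q).2.1, (co_negZ q).2.2.2]; ring
  · rw [(co_negZ q).2.2.1, (co_negZ q).2.2.2]; ring
  · rw [(co_rotZ q).2.1, (co_rotZ q).2.2]; ring

/-- The common second moment. -/
theorem moments_two (δ : ℝ) :
    ∫ q, bump δ (rho q) * coV q ^ 2 ∂hypMeasure = ∫ q, bump δ (rho q) * coU q ^ 2 ∂hypMeasure ∧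
    ∫ q, bump δ (rho q) * coW q ^ 2 ∂hypMeasure = ∫ q, bump δ (rho q) * coU q ^ 2 ∂hypMeasure ∧
    3 * ∫ q, bump δ (rho q) * coU q ^ 2 ∂hypMeasure =
      ∫ q, bump δ (rho q) * (rho q ^ 2 - 1) ∂hypMeasure := by
  have h1 := integral_bump_symm (δ := δ) (co_rotU org).1 (f := fun q => coU q ^ 2)
    (f' := fun q => coV q ^ 2) fun q => by rw [(co_rotU q).2]
  have h2 := integral_bump_symm (δ := δ) (co_rotZ org).1 (f := fun q => coV q ^ 2)
    (f' := fun q => coW q ^ 2) fun q => by rw [(co_rotZ q).2.1]; ring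
  refine ⟨h1, h2.trans h1, ?_⟩
  have hi : ∀ f : H3 → ℝ, Continuous f → (∀ q, |f q| ≤ rho q) →
      Integrable (fun q => bump δ (rho q) * f q ^ 2) hypMeasure := fun f hf hb =>
    integrable_bump_mul (hf.pow 2) (C := (1 + δ) ^ 2) fun q hq => by
      rw [abs_pow]
      exact pow_le_pow_left₀ (abs_nonneg _) ((hb q).trans hq) 2
  have iU := hi _ continuous_coU fun q => (abs_co_le q).1
  have iV := hi _ continuous_coV fun q => (abs_co_le q).2.1
  have iW := hi _ continuous_coW fun q => (abs_co_le q).2.2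
  simp only [← sum_sq_co, mul_add]
  have i2 : Integrable (fun q => bump δ (rho q) * coU q ^ 2 + bump δ (rho q) * coV q ^ 2)
      hypMeasure := iU.add iV
  rw [integral_add i2 iW, integral_add iU iV, h2, h1]
  ring

end FLTAgent.LT.Hyp
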