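import Fermat.Agent.LT.Hyp.Measure
import Mathlib.Analysis.SpecialFunctions.PolarCoord
import Mathlib.MeasureTheory.Integral.IntervalIntegral.FundThmCalculus

/-!
# Integrals of functions of the distance to a point
-/

set_option autoImplicit false

noncomputable section

namespace FLTAgent.LT.Hyp

open MeasureTheory Complex Set
open scoped Real ComplexConjugate ENNReal

/-- The base point. -/
def org : H3 := (0, ⟨1, Set.mem_Ioi.2 one_pos⟩)

theorem coshDist_org (z : ℂ) (s : ℝ) (h : 0 < s) :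
    coshDist org (z, ⟨s, h⟩) = (‖z‖ ^ 2 + s ^ 2 + 1) / (2 * s) := by
  simp [coshDist, org, Complex.normSq_eq_norm_sq]
  field_simp
  ring

theorem lintegral_gauss_plane (F : ℝ → ℝ≥0∞) (hF : Measurable F) {s : ℝ} (hs : 0 < s) :
    ∫⁻ z : ℂ, F ((‖z‖ ^ 2 + s ^ 2 + 1) / (2 * s)) =
      ENNReal.ofReal (2 * π * s) * ∫⁻ ρ in Ioi ((s ^ 2 + 1) / (2 * s)), F ρ := by
  rw [← Complex.lintegral_comp_polarCoord_symm]
  have himg : (fun r : ℝ => (r ^ 2 + s ^ 2 + 1) / (2 * s)) '' Ioi 0 =
      Ioi ((s ^ 2 + 1) / (2 * s)) := by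
    ext ρ
    constructor
    · rintro ⟨r, hr, rfl⟩
      have : 0 < r ^ 2 := pow_pos (mem_Ioi.1 hr) 2
      rw [mem_Ioi, div_lt_div_iff_of_pos_right (by positivity)]
      linarith
    · intro hρ
      rw [mem_Ioi, div_lt_iff₀ (by positivity)] at hρ
      refine ⟨Real.sqrt (2 * s * ρ - s ^ 2 - 1), Real.sqrt_pos.2 (by nlinarith), ?_⟩
      simp only
      rw [Real.sq_sqrt (by nlinarith)]
      field_simp
      ring
  have hinj : InjOn (fun r : ℝ => (r ^ 2 + s ^ 2 + 1) / (2 * s)) (Ioi 0) := fun a ha b hb e => by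
    simp only at e
    rw [div_left_inj' (by positivity)] at e
    exact (pow_left_inj₀ (le_of_lt ha) (le_of_lt hb) two_ne_zero).1 (by linarith)
  have hder : ∀ r ∈ Ioi (0 : ℝ),
      HasDerivWithinAt (fun r : ℝ => (r ^ 2 + s ^ 2 + 1) / (2 * s)) (r / s) (Ioi 0) r := fun r _ => by
    have := (((hasDerivAt_pow 2 r).add_const (s ^ 2)).add_const 1).div_const (2 * s)
    refine (this.congr_deriv ?_).hasDerivWithinAt
    field_simp
    simp
  have key := lintegral_image_eq_lintegral_abs_deriv_mul measurableSet_Ioi hder hinj F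
  rw [himg] at key
  rw [key]
  have hprod : polarCoord.target = Ioi (0 : ℝ) ×ˢ Ioo (-π) π := rfl
  rw [hprod, Measure.volume_eq_prod, ← Measure.prod_restrict, lintegral_prod _ (Measurable.aemeasurable (by
    simp only [Complex.polarCoord_symm_apply]; fun_prop))]
  rw [← lintegral_const_mul' _ _ ENNReal.ofReal_ne_top]
  refine setLIntegral_congr_fun measurableSet_Ioi fun r hr => ?_
  have hr0 : 0 < r := hr
  simp only [Complex.norm_polarCoord_symm, abs_of_pos hr0, smul_eq_mul, lintegral_const,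
    Measure.restrict_apply_univ, Real.volume_Ioo]
  rw [mul_comm (ENNReal.ofReal r), mul_assoc, ← ENNReal.ofReal_mul hr0.le, ← mul_assoc
    (ENNReal.ofReal (2 * π * s)), ← ENNReal.ofReal_mul (by positivity), mul_comm]
  congr 2
  rw [abs_of_pos (by positivity : 0 < r / s)]
  field_simp
  ring

theorem lintegral_inv_sq {a b : ℝ} (ha : 0 < a) (hab : a ≤ b) :
    ∫⁻ s in Ioo a b, ENNReal.ofReal ((s ^ 2)⁻¹) = ENNReal.ofReal (a⁻¹ - b⁻¹) := by
  have hpos : ∀ s ∈ Icc a b, s ≠ 0 := fun s hs => (lt_of_lt_of_le ha hs.1).ne'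
  have hc : ContinuousOn (fun s : ℝ => (s ^ 2)⁻¹) (Icc a b) :=
    ((continuous_pow 2).continuousOn).inv₀ fun s hs => pow_ne_zero 2 (hpos s hs)
  have hi : IntervalIntegrable (fun s : ℝ => (s ^ 2)⁻¹) volume a b :=
    (hc.mono (by rw [uIcc_of_le hab])).intervalIntegrable
  have hint : IntegrableOn (fun s : ℝ => (s ^ 2)⁻¹) (Ioo a b) :=
    (hc.integrableOn_Icc).mono_set Ioo_subset_Icc_self
  rw [← ofReal_integral_eq_lintegral_ofReal hint
    (ae_of_all _ fun s => by positivity)]
  congr 1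
  rw [← integral_Ioc_eq_integral_Ioo, ← intervalIntegral.integral_of_le hab,
    intervalIntegral.integral_eq_sub_of_hasDerivAt (f := fun s => -s⁻¹) (fun s hs => ?_) hi]
  · ring
  · rw [uIcc_of_le hab] at hs
    exact ((hasDerivAt_inv (hpos s hs)).neg).congr_deriv (neg_neg _)

/-- Integrals of functions of the distance to the base point. -/
theorem lintegral_radial_org {F : ℝ → ℝ≥0∞} (hF : Measurable F) :
    ∫⁻ q, F (coshDist org q) ∂hypMeasure =
      ∫⁻ r in Ioi (0 : ℝ), ENNReal.ofReal (4 * π * Real.sinh r ^ 2) * F (Real.cosh r) := by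
  have hm : Measurable fun q => F (coshDist org q) :=
    hF.comp (continuous_coshDist.comp (continuous_const.prodMk continuous_id)).measurable
  have hG : Measurable fun x : ℂ × ℝ =>
      ENNReal.ofReal ((x.2 ^ 3)⁻¹) * liftFun (fun q => F (coshDist org q)) x :=
    (by fun_prop : Measurable fun x : ℂ × ℝ => ENNReal.ofReal ((x.2 ^ 3)⁻¹)).mul
      (measurable_liftFun hm)
  rw [lintegral_hyp hm, Measure.volume_eq_prod, lintegral_prod_symm' _ hG]
  -- the vertical variable
  set S : Set (ℝ × ℝ) := {x | 0 < x.1 ∧ (x.1 ^ 2 + 1) / (2 * x.1) < x.2}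
  have hS : MeasurableSet S := (measurableSet_lt measurable_const measurable_fst).inter
    (measurableSet_lt (by fun_prop) measurable_snd)
  set K : ℝ × ℝ → ℝ≥0∞ :=
    S.indicator fun x => ENNReal.ofReal (2 * π * (x.1 ^ 2)⁻¹) * F x.2
  have hK : Measurable K := ((by fun_prop : Measurable fun x : ℝ × ℝ =>
    ENNReal.ofReal (2 * π * (x.1 ^ 2)⁻¹)).mul (hF.comp measurable_snd)).indicator hS
  have h1 : ∀ s : ℝ, ∫⁻ z : ℂ, ENNReal.ofReal ((((z, s) : ℂ × ℝ).2 ^ 3)⁻¹) *
      liftFun (fun q => F (coshDist org q)) (z, s) = ∫⁻ ρ, K (s, ρ) := by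
    intro s
    by_cases hs : 0 < s
    · simp only [liftFun, hs, dif_pos, coshDist_org _ _ hs]
      rw [lintegral_const_mul' _ _ ENNReal.ofReal_ne_top, lintegral_gauss_plane F hF hs,
        ← mul_assoc, ← ENNReal.ofReal_mul (by positivity), ← lintegral_const_mul' _ _
        ENNReal.ofReal_ne_top, ← lintegral_indicator measurableSet_Ioi]
      refine lintegral_congr fun ρ => ?_
      by_cases hρ : (s ^ 2 + 1) / (2 * s) < ρ
      · rw [Set.indicator_of_mem (show ρ ∈ Ioi _ from hρ)]
        simp only [K]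
        rw [Set.indicator_of_mem (show (s, ρ) ∈ S from ⟨hs, hρ⟩)]
        congr 2
        field_simp
      · rw [Set.indicator_of_notMem (show ρ ∉ Ioi _ from hρ)]
        simp only [K]
        rw [Set.indicator_of_notMem (show (s, ρ) ∉ S from fun h => hρ h.2)]
    · simp only [liftFun, hs, dif_neg, not_false_eq_true, mul_zero, lintegral_zero]
      refine (lintegral_congr fun ρ => ?_).trans lintegral_zero |>.symm
      simp [K, S, hs]
  simp only [h1]
  rw [lintegral_lintegral_swap (f := fun y ρ => K (y, ρ)) hK.aemeasurable]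
  -- the distance
  have h2 : ∀ ρ : ℝ, ∫⁻ s, K (s, ρ) =
      (Ioi (1 : ℝ)).indicator (fun ρ => ENNReal.ofReal (4 * π * Real.sqrt (ρ ^ 2 - 1)) * F ρ) ρ := by
    intro ρ
    by_cases hρ : 1 < ρ
    · have hsq : 0 < ρ ^ 2 - 1 := by nlinarith
      set R := Real.sqrt (ρ ^ 2 - 1)
      have hR : R ^ 2 = ρ ^ 2 - 1 := Real.sq_sqrt hsq.le
      have hR0 : 0 < R := Real.sqrt_pos.2 hsq
      have hRρ : R < ρ := by nlinarith
      have hmem : ∀ s, (s, ρ) ∈ S ↔ s ∈ Ioo (ρ - R) (ρ + R) := fun s => by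
        simp only [S, Set.mem_setOf_eq, Set.mem_Ioo]
        constructor
        · rintro ⟨hs, h⟩
          rw [div_lt_iff₀ (by positivity)] at h
          constructor <;> nlinarith
        · rintro ⟨h1, h2⟩
          have hs : 0 < s := by linarith
          refine ⟨hs, ?_⟩
          rw [div_lt_iff₀ (by positivity)]
          nlinarith
      have hK' : ∀ s, K (s, ρ) = (Ioo (ρ - R) (ρ + R)).indicator
          (fun s => ENNReal.ofReal ((s ^ 2)⁻¹) * (ENNReal.ofReal (2 * π) * F ρ)) s := fun s => by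
        by_cases h : (s, ρ) ∈ S
        · rw [Set.indicator_of_mem ((hmem s).1 h)]
          simp only [K]
          rw [Set.indicator_of_mem h, ← mul_assoc, ← ENNReal.ofReal_mul (by positivity), mul_comm
            ((s ^ 2)⁻¹)]
        · rw [Set.indicator_of_notMem (fun h' => h ((hmem s).2 h'))]
          simp only [K]
          rw [Set.indicator_of_notMem h]
      simp only [hK']
      rw [lintegral_indicator measurableSet_Ioo, lintegral_mul_const _ (by fun_prop),
        lintegral_inv_sq (by linarith) (by linarith), Set.indicator_of_mem (show ρ ∈ Ioi 1 from hρ),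
        ← mul_assoc, ← ENNReal.ofReal_mul' (by positivity)]
      congr 2
      have e : (ρ - R)⁻¹ = ρ + R := inv_eq_of_mul_eq_one_right (by nlinarith)
      have e' : (ρ + R)⁻¹ = ρ - R := inv_eq_of_mul_eq_one_right (by nlinarith)
      rw [e, e']
      ring
    · rw [Set.indicator_of_notMem (show ρ ∉ Ioi 1 from hρ)]
      refine (lintegral_congr fun s => ?_).trans lintegral_zero
      simp only [K]
      refine Set.indicator_of_notMem (fun h => hρ ?_) _
      obtain ⟨hs, h⟩ := h
      simp only [div_lt_iff₀ (by positivity : (0 : ℝ) < 2 * s)] at h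
      nlinarith [sq_nonneg (s - 1)]
  simp only [h2]
  rw [lintegral_indicator measurableSet_Ioi]
  have himg : Real.cosh '' Ioi 0 = Ioi 1 := by
    ext ρ
    constructor
    · rintro ⟨r, hr, rfl⟩
      exact Real.one_lt_cosh.2 (ne_of_gt hr)
    · intro hρ
      exact ⟨Real.arcosh ρ, Real.arcosh_pos hρ, Real.cosh_arcosh (le_of_lt hρ)⟩
  have key := lintegral_image_eq_lintegral_abs_deriv_mul measurableSet_Ioi
    (fun r _ => (Real.hasDerivAt_cosh r).hasDerivWithinAt)
    (Real.cosh_strictMonoOn.injOn.mono Ioi_subset_Ici_self)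
    (fun ρ => ENNReal.ofReal (4 * π * Real.sqrt (ρ ^ 2 - 1)) * F ρ)
  rw [himg] at key
  rw [key]
  refine setLIntegral_congr_fun measurableSet_Ioi fun r hr => ?_
  have hs : 0 < Real.sinh r := Real.sinh_pos_iff.2 hr
  rw [← mul_assoc, ← ENNReal.ofReal_mul (abs_nonneg _), abs_of_pos hs,
    show Real.cosh r ^ 2 - 1 = Real.sinh r ^ 2 by rw [Real.cosh_sq]; ring, Real.sqrt_sq hs.le]
  congr 2
  ring

end FLTAgent.LT.Hyp
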